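import Mathlib
import Fermat.Prelude.Def_ModularCurve_X0

/-!
# Truncated power-series arithmetic with explicit coefficient lists

`Rep n A l` says that the list `l` records the coefficients `0, …, n-1` of `A : ℤ⟦X⟧`.
All list operations are structurally recursive, so closed instances are evaluated by the kernel
(`decide +kernel`).  Used for the finitely many coefficient checks behind the Sturm-bound proofs
of the Hauptmodul identities at levels `2` and `3` (`AuxLevel/Ident.lean`).
-/

set_option autoImplicit false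

namespace Fermat.Agent.S30.AuxLevel

open PowerSeries

/-- `l` lists the coefficients `0, …, n - 1` of `A`. -/
def Rep (n : ℕ) (A : PowerSeries ℤ) (l : List ℤ) : Prop :=
  ∀ i, i < n → coeff i A = l.getD i 0

/-- The list `[f 0, …, f (n-1)]`. -/
def tab (n : ℕ) (f : ℕ → ℤ) : List ℤ := (List.range n).map f

theorem getD_tab {n i : ℕ} (h : i < n) (f : ℕ → ℤ) : (tab n f).getD i 0 = f i := by
  simp [tab, List.getD_eq_getElem?_getD, h]

theorem list_sum_range (f : ℕ → ℤ) (n : ℕ) :
    ((List.range n).map f).sum = ∑ i ∈ Finset.range n, f i := by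
  induction n with
  | zero => simp
  | succ n ih =>
    rw [List.range_succ, List.map_append, List.sum_append, ih, Finset.sum_range_succ]
    simp

/-- coefficientwise sum -/
def ladd (n : ℕ) (l m : List ℤ) : List ℤ := tab n fun i => l.getD i 0 + m.getD i 0

/-- coefficientwise difference -/
def lsub (n : ℕ) (l m : List ℤ) : List ℤ := tab n fun i => l.getD i 0 - m.getD i 0

/-- scalar multiple -/
def lsmul (n : ℕ) (c : ℤ) (l : List ℤ) : List ℤ := tab n fun i => c * l.getD i 0

/-- truncated Cauchy product -/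
def lmul (n : ℕ) (l m : List ℤ) : List ℤ :=
  tab n fun i => ((List.range (i + 1)).map fun j => l.getD j 0 * m.getD (i - j) 0).sum

/-- the list of `1` -/
def lone (n : ℕ) : List ℤ := tab n fun i => if i = 0 then 1 else 0

/-- truncated power -/
def lpow (n : ℕ) (l : List ℤ) : ℕ → List ℤ
  | 0 => lone n
  | k + 1 => lmul n (lpow n l k) l

/-- multiplication by `X` -/
def lshift (n : ℕ) (l : List ℤ) : List ℤ := tab n fun i => if i = 0 then 0 else l.getD (i - 1) 0

/-- the substitution `X ↦ X ^ d` -/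
def lexp (n d : ℕ) (l : List ℤ) : List ℤ :=
  tab n fun i => if i % d = 0 then l.getD (i / d) 0 else 0

variable {n : ℕ} {A B : PowerSeries ℤ} {l m : List ℤ}

theorem Rep.add (hA : Rep n A l) (hB : Rep n B m) : Rep n (A + B) (ladd n l m) := by
  intro i hi
  rw [ladd, getD_tab hi, map_add, hA i hi, hB i hi]

theorem Rep.sub (hA : Rep n A l) (hB : Rep n B m) : Rep n (A - B) (lsub n l m) := by
  intro i hi
  rw [lsub, getD_tab hi, map_sub, hA i hi, hB i hi]

theorem Rep.C_mul (c : ℤ) (hA : Rep n A l) : Rep n (C c * A) (lsmul n c l) := by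
  intro i hi
  rw [lsmul, getD_tab hi, coeff_C_mul, hA i hi]

theorem Rep.mul (hA : Rep n A l) (hB : Rep n B m) : Rep n (A * B) (lmul n l m) := by
  intro i hi
  rw [lmul, getD_tab hi, coeff_mul, Finset.Nat.sum_antidiagonal_eq_sum_range_succ_mk,
    list_sum_range]
  refine Finset.sum_congr rfl fun j hj => ?_
  have hj' : j < i + 1 := Finset.mem_range.mp hj
  rw [hA j (by omega), hB (i - j) (by omega)]

theorem rep_one (n : ℕ) : Rep n 1 (lone n) := by
  intro i hi
  rw [lone, getD_tab hi, coeff_one]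

theorem Rep.pow (hA : Rep n A l) (k : ℕ) : Rep n (A ^ k) (lpow n l k) := by
  induction k with
  | zero => simpa [lpow] using rep_one n
  | succ k ih =>
    rw [pow_succ]
    exact ih.mul hA

theorem Rep.X_mul (hA : Rep n A l) : Rep n (X * A) (lshift n l) := by
  intro i hi
  rw [lshift, getD_tab hi]
  rcases i with _ | i
  · simp
  · rw [coeff_succ_X_mul, if_neg (Nat.succ_ne_zero i), Nat.add_sub_cancel, hA i (by omega)]

theorem Rep.expand {d : ℕ} (hA : Rep n A l)
    (hB : ∀ i, coeff i B = if d ∣ i then coeff (i / d) A else 0) :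
    Rep n B (lexp n d l) := by
  intro i hi
  rw [lexp, getD_tab hi, hB i]
  by_cases h : d ∣ i
  · rw [if_pos h, if_pos (Nat.mod_eq_zero_of_dvd h)]
    exact hA _ (lt_of_le_of_lt (Nat.div_le_self i d) hi)
  · rw [if_neg h, if_neg (fun h' => h (Nat.dvd_of_mod_eq_zero h'))]

theorem Rep.coeff_eq_zero (hA : Rep n A l) (hl : l = List.replicate n 0) :
    ∀ i, i < n → coeff i A = 0 := by
  intro i hi
  rw [hA i hi, hl]
  simp [List.getD_eq_getElem?_getD, hi]

theorem Rep.congr {l' : List ℤ} (hA : Rep n A l) (h : l = l') : Rep n A l' := h ▸ hA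

/-! ### The Eisenstein series `E₄` -/

/-- `σ₃(i)` by a structurally recursive sum. -/
def sig3 (i : ℕ) : ℤ := ((List.range (i + 1)).map fun d => if i % d = 0 then (d : ℤ) ^ 3 else 0).sum

theorem sig3_eq {i : ℕ} (hi : i ≠ 0) : sig3 i = ∑ d ∈ i.divisors, (d : ℤ) ^ 3 := by
  rw [sig3, list_sum_range, ← Finset.sum_filter]
  refine Finset.sum_congr ?_ fun _ _ => rfl
  ext d
  simp only [Finset.mem_filter, Finset.mem_range, Nat.mem_divisors]
  constructor
  · rintro ⟨_, h⟩
    exact ⟨Nat.dvd_of_mod_eq_zero h, hi⟩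
  · rintro ⟨h, _⟩
    exact ⟨Nat.lt_succ_of_le (Nat.le_of_dvd (Nat.pos_of_ne_zero hi) h), Nat.mod_eq_zero_of_dvd h⟩

/-- the coefficient list of `E₄` -/
def e4L (n : ℕ) : List ℤ := tab n fun i => if i = 0 then 1 else 240 * sig3 i

theorem rep_eisenstein4 (n : ℕ) : Rep n ModularCurve.eisenstein4 (e4L n) := by
  intro i hi
  rw [e4L, getD_tab hi, ModularCurve.eisenstein4, coeff_mk]
  by_cases h : i = 0
  · rw [if_pos h, if_pos h]
  · rw [if_neg h, if_neg h, sig3_eq h]

/-! ### The Euler product `∏ (1 - Xⁿ)` -/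

/-- the coefficient list of `1 - X ^ (k + 1)` -/
def factL (n k : ℕ) : List ℤ := tab n fun i => if i = 0 then 1 else if i = k + 1 then -1 else 0

theorem rep_fact (n k : ℕ) : Rep n (1 - X ^ (k + 1) : PowerSeries ℤ) (factL n k) := by
  intro i hi
  rw [factL, getD_tab hi, map_sub, coeff_one, coeff_X_pow]
  by_cases h0 : i = 0
  · subst h0
    simp
  · rw [if_neg h0, if_neg h0]
    by_cases h1 : i = k + 1
    · rw [if_pos h1, if_pos h1]; ring
    · rw [if_neg h1, if_neg h1]; ring

/-- the coefficient list of `∏_{k < m} (1 - X ^ (k + 1))` -/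
def etaPartL (n m : ℕ) : List ℤ := (List.range m).foldl (fun acc k => lmul n acc (factL n k)) (lone n)

theorem rep_etaPart (n m : ℕ) :
    Rep n (∏ k ∈ Finset.range m, (1 - X ^ (k + 1) : PowerSeries ℤ)) (etaPartL n m) := by
  induction m with
  | zero => simpa [etaPartL] using rep_one n
  | succ m ih =>
    rw [Finset.prod_range_succ, etaPartL, List.range_succ, List.foldl_append]
    exact ih.mul (rep_fact n m)

theorem exists_tail (n : ℕ) (t : Finset ℕ) (ht : ∀ k ∈ t, n ≤ k) :
    ∃ C : PowerSeries ℤ, ∏ k ∈ t, (1 - X ^ (k + 1) : PowerSeries ℤ) = 1 + X ^ n * C := by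
  classical
  induction t using Finset.induction_on with
  | empty => exact ⟨0, by simp⟩
  | insert a t ha ih =>
    obtain ⟨C, hC⟩ := ih fun k hk => ht k (Finset.mem_insert_of_mem hk)
    have han : n ≤ a := ht a (Finset.mem_insert_self a t)
    refine ⟨C - X ^ (a + 1 - n) - X ^ (a + 1 - n) * X ^ n * C, ?_⟩
    rw [Finset.prod_insert ha, hC]
    have hpow : (X : PowerSeries ℤ) ^ (a + 1) = X ^ n * X ^ (a + 1 - n) := by
      rw [← pow_add]; congr 1; omega
    rw [hpow]
    ring

open scoped PowerSeries.WithPiTopology in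
theorem coeff_etaProd {n i : ℕ} (hi : i < n) :
    coeff i ModularCurve.etaProd
      = coeff i (∏ k ∈ Finset.range n, (1 - X ^ (k + 1) : PowerSeries ℤ)) := by
  classical
  have h := (PowerSeries.WithPiTopology.multipliable_one_sub_X_pow ℤ).hasProd
  rw [HasProd, PowerSeries.WithPiTopology.tendsto_iff_coeff_tendsto] at h
  have hd := h i
  rw [nhds_discrete, Filter.tendsto_pure] at hd
  obtain ⟨s₀, hs₀⟩ := Filter.eventually_atTop.mp hd
  have hs := hs₀ (s₀ ∪ Finset.range n) Finset.subset_union_left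
  have hsplit : ∏ k ∈ s₀ ∪ Finset.range n, (1 - X ^ (k + 1) : PowerSeries ℤ)
      = (∏ k ∈ Finset.range n, (1 - X ^ (k + 1) : PowerSeries ℤ))
        * ∏ k ∈ (s₀ ∪ Finset.range n) \ Finset.range n, (1 - X ^ (k + 1) : PowerSeries ℤ) := by
    rw [mul_comm]
    exact (Finset.prod_sdiff Finset.subset_union_right).symm
  obtain ⟨C, hC⟩ := exists_tail n ((s₀ ∪ Finset.range n) \ Finset.range n) (by
    intro k hk
    have := (Finset.mem_sdiff.mp hk).2
    rw [Finset.mem_range] at this
    omega)
  rw [ModularCurve.etaProd, ← hs, hsplit, hC, mul_add, mul_one, map_add,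
    mul_comm _ (X ^ n * C), mul_assoc, coeff_X_pow_mul', if_neg (by omega), add_zero]

/-- the coefficient list of the Euler product -/
def etaL (n : ℕ) : List ℤ := etaPartL n n

theorem rep_etaProd (n : ℕ) : Rep n ModularCurve.etaProd (etaL n) := by
  intro i hi
  rw [coeff_etaProd hi]
  exact rep_etaPart n n i hi

end Fermat.Agent.S30.AuxLevel
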