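import Mathlib
import Fermat.Agent.S28.SturmMF
import Fermat.Agent.Lib.Gamma0Index
import Fermat.Agent.S30.AuxLevel.Trunc

/-!
# The Hauptmodul identities at levels `2` and `3`, integral power-series form

With `E = E₄`, `P = ∏ (1 - Xⁿ)`, `U = P²⁴`, `a = P¹²` and `f⁽ᵈ⁾ = f(X^d)`:

* `ident2`  : `E³ U U⁽²⁾ = (U + 256 X U⁽²⁾)³`
* `ident2'` : `(E⁽²⁾)³ U U⁽²⁾ = (U + 16 X U⁽²⁾)³`
* `ident3`  : `E³ a a⁽³⁾ = (a + 27 X a⁽³⁾) (a + 243 X a⁽³⁾)³`
* `ident3'` : `(E⁽³⁾)³ a a⁽³⁾ = (a + 27 X a⁽³⁾) (a + 3 X a⁽³⁾)³`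

The first two are identities in `M₃₆(Γ₀(2))` (`E₄³ Δ Δ₂ = (Δ + 256 Δ₂)³`), proved with the Sturm
bound of the Prelude through `S28.SturmMF.mfGraded` and a kernel computation of 10 coefficients.
The last two involve `η¹²`, which is not a modular form; we prove their squares, which are
identities in `M₄₈(Γ₀(3))` (17 coefficients), and extract the square root in the domain `ℤ⟦X⟧`.
-/

set_option autoImplicit false

noncomputable section

namespace Fermat.Agent.S30.AuxLevel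

open ModularCurve CongruenceSubgroup PowerSeries
open Fermat.Agent.S28.SturmDep Fermat.Agent.S28.SturmMF

/-- `E₄` -/
abbrev EZ : PowerSeries ℤ := eisenstein4

/-- `Δ = X ∏ (1 - Xⁿ)²⁴` -/
def DZ : PowerSeries ℤ := X * etaProd ^ 24

/-- the substitution `X ↦ X ^ d` -/
abbrev ex (d : ℕ) [NeZero d] : PowerSeries ℤ →ₐ[ℤ] PowerSeries ℤ :=
  PowerSeries.expand d (NeZero.ne d)

theorem pexp_eq_expand {R : Type*} [CommRing R] (d : ℕ) (hd : d ≠ 0) (a : PowerSeries R) :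
    pexp d a = PowerSeries.expand d hd a := by
  ext n
  rw [coeff_pexp, PowerSeries.coeff_expand]

theorem e4Q_eq : e4Q = EZ.map (Int.castRingHom ℚ) := rfl

theorem deltaQ_eq : deltaQ = DZ.map (Int.castRingHom ℚ) := by
  rw [deltaQ, DZ, map_mul, PowerSeries.map_X, dedekindEtaUnit]

theorem dedekindPsi_prime {p : ℕ} (hp : p.Prime) : dedekindPsi p = p + 1 := by
  have h := Fermat.Agent.Lib.Gamma0Count.dedekindPsi_mul_prime_of_not_dvd 1 p one_ne_zero hp
    (by simpa using hp.ne_one)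
  rwa [one_mul, dedekindPsi_one, mul_one] at h

theorem index_two : (Gamma0 2).index = 3 := by
  rw [Fermat.Agent.Lib.Gamma0Count.index_Gamma0 2 (by norm_num), dedekindPsi_prime Nat.prime_two]

theorem index_three : (Gamma0 3).index = 4 := by
  rw [Fermat.Agent.Lib.Gamma0Count.index_Gamma0 3 (by norm_num),
    dedekindPsi_prime Nat.prime_three]

/-- `A` is the `q`-expansion of a modular form of weight `k` on `Γ₀(N)`. -/
def InM (N : ℕ) [NeZero N] (k : ℕ) (A : PowerSeries ℤ) : Prop :=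
  A.map (Int.castRingHom ℚ) ∈ (mfGraded N).M k

section InM

variable {N : ℕ} [NeZero N] {k l : ℕ} {A B : PowerSeries ℤ}

theorem InM.add (hA : InM N k A) (hB : InM N k B) : InM N k (A + B) := by
  rw [InM, map_add]
  exact ((mfGraded N).M k).add_mem hA hB

theorem InM.sub (hA : InM N k A) (hB : InM N k B) : InM N k (A - B) := by
  rw [InM, map_sub]
  exact ((mfGraded N).M k).sub_mem hA hB

theorem InM.mul (hA : InM N k A) (hB : InM N l B) : InM N (k + l) (A * B) := by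
  rw [InM, map_mul]
  exact (mfGraded N).mul_mem hA hB

theorem InM.cast (h : k = l) (hA : InM N k A) : InM N l A := h ▸ hA

theorem InM.pow (hA : InM N k A) (m : ℕ) : InM N (m * k) (A ^ m) := by
  rw [InM, map_pow]
  exact (mfGraded N).pow_mem hA m

theorem InM.C_mul (c : ℤ) (hA : InM N k A) : InM N k (C c * A) := by
  rw [InM, map_mul, PowerSeries.map_C, ← PowerSeries.smul_eq_C_mul]
  exact ((mfGraded N).M k).smul_mem _ hA

theorem inM_E (N : ℕ) [NeZero N] : InM N 4 EZ := e4Q_mem N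

theorem inM_D (N : ℕ) [NeZero N] : InM N 12 DZ := by
  rw [InM, ← deltaQ_eq]
  exact deltaQ_mem N

theorem inM_exE {d : ℕ} [NeZero d] (hd : d ∣ N) : InM N 4 (ex d EZ) := by
  rw [InM, PowerSeries.map_expand, ← pexp_eq_expand]
  exact pexp_e4Q_mem N hd

theorem inM_exD {d : ℕ} [NeZero d] (hd : d ∣ N) : InM N 12 (ex d DZ) := by
  rw [InM, PowerSeries.map_expand, ← pexp_eq_expand, ← deltaQ_eq]
  exact pexp_deltaQ_mem N hd

/-- The Sturm bound in computational form. -/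
theorem eq_zero_of_rep {n : ℕ} (hn : k * (Gamma0 N).index / 12 < n) (F : PowerSeries ℤ)
    (hF : InM N k F) {L : List ℤ} (hrep : Rep n F L) (hL : L = List.replicate n 0) : F = 0 := by
  have h0 := (mfGraded N).sturm k _ hF (fun m hm => by
    rw [PowerSeries.coeff_map, hrep.coeff_eq_zero hL m (lt_of_le_of_lt hm hn)]
    simp)
  exact PowerSeries.map_injective _ Int.cast_injective (h0.trans (map_zero _).symm)

end InM

/-! ### Level 2 -/

theorem ident2_delta : EZ ^ 3 * DZ * ex 2 DZ = (DZ + C 256 * ex 2 DZ) ^ 3 := by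
  have hE := rep_eisenstein4 10
  have hD : Rep 10 DZ _ := ((rep_etaProd 10).pow 24).X_mul
  have hD2 : Rep 10 (ex 2 DZ) _ := hD.expand (d := 2) (fun i => PowerSeries.coeff_expand 2 _ DZ)
  have hrep := (((hE.pow 3).mul hD).mul hD2).sub ((hD.add (hD2.C_mul 256)).pow 3)
  have hmem : InM 2 36 (EZ ^ 3 * DZ * ex 2 DZ - (DZ + C 256 * ex 2 DZ) ^ 3) :=
    ((((inM_E 2).pow 3).mul (inM_D 2)).mul (inM_exD (dvd_refl 2))).sub
      (((inM_D 2).add ((inM_exD (dvd_refl 2)).C_mul 256)).pow 3)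
  exact sub_eq_zero.mp
    (eq_zero_of_rep (n := 10) (by rw [index_two]; norm_num) _ hmem hrep (by decide +kernel))

theorem ident2'_delta : ex 2 EZ ^ 3 * DZ * ex 2 DZ = (DZ + C 16 * ex 2 DZ) ^ 3 := by
  have hE : Rep 10 (ex 2 EZ) _ :=
    (rep_eisenstein4 10).expand (d := 2) (fun i => PowerSeries.coeff_expand 2 _ EZ)
  have hD : Rep 10 DZ _ := ((rep_etaProd 10).pow 24).X_mul
  have hD2 : Rep 10 (ex 2 DZ) _ := hD.expand (d := 2) (fun i => PowerSeries.coeff_expand 2 _ DZ)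
  have hrep := (((hE.pow 3).mul hD).mul hD2).sub ((hD.add (hD2.C_mul 16)).pow 3)
  have hmem : InM 2 36 (ex 2 EZ ^ 3 * DZ * ex 2 DZ - (DZ + C 16 * ex 2 DZ) ^ 3) :=
    ((((inM_exE (dvd_refl 2)).pow 3).mul (inM_D 2)).mul (inM_exD (dvd_refl 2))).sub
      (((inM_D 2).add ((inM_exD (dvd_refl 2)).C_mul 16)).pow 3)
  exact sub_eq_zero.mp
    (eq_zero_of_rep (n := 10) (by rw [index_two]; norm_num) _ hmem hrep (by decide +kernel))

/-! ### Level 3: the squared identities -/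

theorem ident3_sq : DZ * ex 3 DZ * (EZ ^ 3 - C 756 * DZ - C 19131876 * ex 3 DZ) ^ 2
    = (DZ ^ 2 + C 196830 * (DZ * ex 3 DZ) + C 387420489 * ex 3 DZ ^ 2) ^ 2 := by
  have hE := rep_eisenstein4 17
  have hD : Rep 17 DZ _ := ((rep_etaProd 17).pow 24).X_mul
  have hD3 : Rep 17 (ex 3 DZ) _ := hD.expand (d := 3) (fun i => PowerSeries.coeff_expand 3 _ DZ)
  have hrep := ((hD.mul hD3).mul ((((hE.pow 3).sub (hD.C_mul 756)).sub
    (hD3.C_mul 19131876)).pow 2)).sub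
    ((((hD.pow 2).add ((hD.mul hD3).C_mul 196830)).add ((hD3.pow 2).C_mul 387420489)).pow 2)
  have hD3m : InM 3 12 (ex 3 DZ) := inM_exD (dvd_refl 3)
  have hmem : InM 3 48 (DZ * ex 3 DZ * (EZ ^ 3 - C 756 * DZ - C 19131876 * ex 3 DZ) ^ 2
      - (DZ ^ 2 + C 196830 * (DZ * ex 3 DZ) + C 387420489 * ex 3 DZ ^ 2) ^ 2) :=
    (((inM_D 3).mul hD3m).mul (((((inM_E 3).pow 3).sub ((inM_D 3).C_mul 756)).sub
      (hD3m.C_mul 19131876)).pow 2)).sub
      (((((inM_D 3).pow 2).add (((inM_D 3).mul hD3m).C_mul 196830)).add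
        ((hD3m.pow 2).C_mul 387420489)).pow 2)
  exact sub_eq_zero.mp
    (eq_zero_of_rep (n := 17) (by rw [index_three]; norm_num) _ hmem hrep (by decide +kernel))

theorem ident3'_sq : DZ * ex 3 DZ * (ex 3 EZ ^ 3 - C 36 * DZ - C 756 * ex 3 DZ) ^ 2
    = (DZ ^ 2 + C 270 * (DZ * ex 3 DZ) + C 729 * ex 3 DZ ^ 2) ^ 2 := by
  have hE : Rep 17 (ex 3 EZ) _ :=
    (rep_eisenstein4 17).expand (d := 3) (fun i => PowerSeries.coeff_expand 3 _ EZ)
  have hD : Rep 17 DZ _ := ((rep_etaProd 17).pow 24).X_mul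
  have hD3 : Rep 17 (ex 3 DZ) _ := hD.expand (d := 3) (fun i => PowerSeries.coeff_expand 3 _ DZ)
  have hrep := ((hD.mul hD3).mul ((((hE.pow 3).sub (hD.C_mul 36)).sub
    (hD3.C_mul 756)).pow 2)).sub
    ((((hD.pow 2).add ((hD.mul hD3).C_mul 270)).add ((hD3.pow 2).C_mul 729)).pow 2)
  have hD3m : InM 3 12 (ex 3 DZ) := inM_exD (dvd_refl 3)
  have hmem : InM 3 48 (DZ * ex 3 DZ * (ex 3 EZ ^ 3 - C 36 * DZ - C 756 * ex 3 DZ) ^ 2
      - (DZ ^ 2 + C 270 * (DZ * ex 3 DZ) + C 729 * ex 3 DZ ^ 2) ^ 2) :=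
    (((inM_D 3).mul hD3m).mul (((((inM_exE (dvd_refl 3)).pow 3).sub ((inM_D 3).C_mul 36)).sub
      (hD3m.C_mul 756)).pow 2)).sub
      (((((inM_D 3).pow 2).add (((inM_D 3).mul hD3m).C_mul 270)).add
        ((hD3m.pow 2).C_mul 729)).pow 2)
  exact sub_eq_zero.mp
    (eq_zero_of_rep (n := 17) (by rw [index_three]; norm_num) _ hmem hrep (by decide +kernel))

end Fermat.Agent.S30.AuxLevel
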