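import Mathlib
import Fermat.Prelude.Def_ModularCurve_JqCoeff
import Fermat.Prelude.Def_ModularCurve_LaurentCoeff
import Fermat.Agent.S30.AuxLevel.Ident

/-!
# The Hauptmoduln `t₂ = Δ(τ)/Δ(2τ)` and `t₃ = (η(τ)/η(3τ))¹²` as integral Laurent series

For every commutative ring `K` (so also in characteristic `ℓ`):

* `jq_mul_t2_sq`   : `j · t₂² = (t₂ + 256)³`
* `jq2_mul_t2`     : `j(q²) · t₂ = (t₂ + 16)³`
* `jq_mul_t3_cube` : `j · t₃³ = (t₃ + 27)(t₃ + 243)³`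
* `jq3_mul_t3`     : `j(q³) · t₃ = (t₃ + 27)(t₃ + 3)³`

where `j = jqModC K`, `j(q^d) = jqNModC K d` are the Prelude `q`-expansions and
`t₂ = q⁻¹ · t2Num`, `t₃ = q⁻¹ · t3Num` with `t2Num, t3Num ∈ 1 + X ℤ⟦X⟧`.
-/

set_option autoImplicit false

noncomputable section

namespace Fermat.Agent.S30.AuxLevel

open ModularCurve PowerSeries

/-- `U = ∏ (1 - Xⁿ)²⁴` -/
abbrev UZ : PowerSeries ℤ := dedekindEtaUnit

/-- `U⁻¹` -/
abbrev VZ : PowerSeries ℤ := dedekindEtaUnitInv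

/-- `a = ∏ (1 - Xⁿ)¹²` -/
def aZ : PowerSeries ℤ := etaProd ^ 12

theorem UZ_mul_VZ : UZ * VZ = 1 := dedekindEtaUnit_mul_inv

theorem aZ_sq : aZ ^ 2 = UZ := by
  rw [aZ, ← pow_mul]
  rfl

theorem aZ_mul_aZ_mul_VZ : aZ * (aZ * VZ) = 1 := by
  rw [← mul_assoc, ← sq, aZ_sq, UZ_mul_VZ]

theorem DZ_eq : DZ = X * UZ := rfl

theorem ex_DZ (d : ℕ) [NeZero d] : ex d DZ = X ^ d * ex d UZ := by
  rw [DZ_eq, map_mul, PowerSeries.expand_X]

theorem ex_UZ_mul_ex_VZ (d : ℕ) [NeZero d] : ex d UZ * ex d VZ = 1 := by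
  rw [← map_mul, UZ_mul_VZ, map_one]

/-! ### Level 2 -/

theorem ident2 : EZ ^ 3 * UZ * ex 2 UZ = (UZ + 256 * X * ex 2 UZ) ^ 3 := by
  have h := ident2_delta
  rw [ex_DZ, DZ_eq, show (C (256 : ℤ) : PowerSeries ℤ) = 256 from map_ofNat C 256] at h
  apply mul_left_cancel₀ (pow_ne_zero 3 (PowerSeries.X_ne_zero (R := ℤ)))
  linear_combination h

theorem ident2' : ex 2 EZ ^ 3 * UZ * ex 2 UZ = (UZ + 16 * X * ex 2 UZ) ^ 3 := by
  have h := ident2'_delta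
  rw [ex_DZ, DZ_eq, show (C (16 : ℤ) : PowerSeries ℤ) = 16 from map_ofNat C 16] at h
  apply mul_left_cancel₀ (pow_ne_zero 3 (PowerSeries.X_ne_zero (R := ℤ)))
  linear_combination h

/-! ### Level 3: extraction of the square root -/

theorem DZ_eq_aZ : DZ = X * aZ ^ 2 := by rw [aZ_sq, DZ_eq]

theorem ex3_DZ_eq : ex 3 DZ = X * (X * ex 3 aZ) ^ 2 := by
  rw [ex_DZ, ← aZ_sq, map_pow]
  ring

theorem ident3 :
    EZ ^ 3 * aZ * ex 3 aZ = (aZ + 27 * X * ex 3 aZ) * (aZ + 243 * X * ex 3 aZ) ^ 3 := by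
  have hsq : (X * (aZ * (X * ex 3 aZ) * (EZ ^ 3 - C 756 * DZ - C 19131876 * ex 3 DZ))) ^ 2
      = (DZ ^ 2 + C 196830 * (DZ * ex 3 DZ) + C 387420489 * ex 3 DZ ^ 2) ^ 2 := by
    rw [← ident3_sq]
    linear_combination
      (-((EZ ^ 3 - C 756 * DZ - C 19131876 * ex 3 DZ) ^ 2) * ex 3 DZ) * DZ_eq_aZ
        - ((EZ ^ 3 - C 756 * DZ - C 19131876 * ex 3 DZ) ^ 2 * X * aZ ^ 2) * ex3_DZ_eq
  have hE := rep_eisenstein4 3
  have ha : Rep 3 aZ _ := (rep_etaProd 3).pow 12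
  have hβ : Rep 3 (ex 3 aZ) _ := ha.expand (d := 3) (fun i => PowerSeries.coeff_expand 3 _ aZ)
  have hD : Rep 3 DZ _ := ((rep_etaProd 3).pow 24).X_mul
  have hD3 : Rep 3 (ex 3 DZ) _ := hD.expand (d := 3) (fun i => PowerSeries.coeff_expand 3 _ DZ)
  have hu := ((ha.mul hβ.X_mul).mul
    (((hE.pow 3).sub (hD.C_mul 756)).sub (hD3.C_mul 19131876))).X_mul
  have hv := ((hD.pow 2).add ((hD.mul hD3).C_mul 196830)).add ((hD3.pow 2).C_mul 387420489)
  have hu2 := (hu 2 (by norm_num)).trans (show _ = (1 : ℤ) by decide +kernel)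
  have hv2 := (hv 2 (by norm_num)).trans (show _ = (1 : ℤ) by decide +kernel)
  rcases sq_eq_sq_iff_eq_or_eq_neg.mp hsq with h | h
  · rw [ex3_DZ_eq, DZ_eq_aZ, show (C (756 : ℤ) : PowerSeries ℤ) = 756 from map_ofNat C 756,
      show (C (19131876 : ℤ) : PowerSeries ℤ) = 19131876 from map_ofNat C 19131876,
      show (C (196830 : ℤ) : PowerSeries ℤ) = 196830 from map_ofNat C 196830,
      show (C (387420489 : ℤ) : PowerSeries ℤ) = 387420489 from map_ofNat C 387420489] at h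
    apply mul_left_cancel₀ (pow_ne_zero 2 (PowerSeries.X_ne_zero (R := ℤ)))
    linear_combination h
  · exfalso
    have h2 := congrArg (PowerSeries.coeff 2) h
    rw [map_neg, hu2, hv2] at h2
    norm_num at h2

theorem ident3' :
    ex 3 EZ ^ 3 * aZ * ex 3 aZ = (aZ + 27 * X * ex 3 aZ) * (aZ + 3 * X * ex 3 aZ) ^ 3 := by
  have hsq : (X * (aZ * (X * ex 3 aZ) * (ex 3 EZ ^ 3 - C 36 * DZ - C 756 * ex 3 DZ))) ^ 2
      = (DZ ^ 2 + C 270 * (DZ * ex 3 DZ) + C 729 * ex 3 DZ ^ 2) ^ 2 := by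
    rw [← ident3'_sq]
    linear_combination
      (-((ex 3 EZ ^ 3 - C 36 * DZ - C 756 * ex 3 DZ) ^ 2) * ex 3 DZ) * DZ_eq_aZ
        - ((ex 3 EZ ^ 3 - C 36 * DZ - C 756 * ex 3 DZ) ^ 2 * X * aZ ^ 2) * ex3_DZ_eq
  have hE : Rep 3 (ex 3 EZ) _ :=
    (rep_eisenstein4 3).expand (d := 3) (fun i => PowerSeries.coeff_expand 3 _ EZ)
  have ha : Rep 3 aZ _ := (rep_etaProd 3).pow 12
  have hβ : Rep 3 (ex 3 aZ) _ := ha.expand (d := 3) (fun i => PowerSeries.coeff_expand 3 _ aZ)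
  have hD : Rep 3 DZ _ := ((rep_etaProd 3).pow 24).X_mul
  have hD3 : Rep 3 (ex 3 DZ) _ := hD.expand (d := 3) (fun i => PowerSeries.coeff_expand 3 _ DZ)
  have hu := ((ha.mul hβ.X_mul).mul
    (((hE.pow 3).sub (hD.C_mul 36)).sub (hD3.C_mul 756))).X_mul
  have hv := ((hD.pow 2).add ((hD.mul hD3).C_mul 270)).add ((hD3.pow 2).C_mul 729)
  have hu2 := (hu 2 (by norm_num)).trans (show _ = (1 : ℤ) by decide +kernel)
  have hv2 := (hv 2 (by norm_num)).trans (show _ = (1 : ℤ) by decide +kernel)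
  rcases sq_eq_sq_iff_eq_or_eq_neg.mp hsq with h | h
  · rw [ex3_DZ_eq, DZ_eq_aZ, show (C (36 : ℤ) : PowerSeries ℤ) = 36 from map_ofNat C 36,
      show (C (756 : ℤ) : PowerSeries ℤ) = 756 from map_ofNat C 756,
      show (C (270 : ℤ) : PowerSeries ℤ) = 270 from map_ofNat C 270,
      show (C (729 : ℤ) : PowerSeries ℤ) = 729 from map_ofNat C 729] at h
    apply mul_left_cancel₀ (pow_ne_zero 2 (PowerSeries.X_ne_zero (R := ℤ)))
    linear_combination h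
  · exfalso
    have h2 := congrArg (PowerSeries.coeff 2) h
    rw [map_neg, hu2, hv2] at h2
    norm_num at h2

/-! ### The numerators of `t₂`, `t₃` and the identities in `ℤ⟦X⟧` -/

/-- `t₂ = q⁻¹ · t2Num`, `t2Num = U / U⁽²⁾`. -/
def t2Num : PowerSeries ℤ := UZ * ex 2 VZ

/-- `t₃ = q⁻¹ · t3Num`, `t3Num = a / a⁽³⁾`. -/
def t3Num : PowerSeries ℤ := aZ * (ex 3 aZ * ex 3 VZ)

theorem constantCoeff_aZ : PowerSeries.constantCoeff aZ = 1 := by
  rw [aZ, map_pow, constantCoeff_etaProd, one_pow]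

theorem constantCoeff_t2Num : PowerSeries.constantCoeff t2Num = 1 := by
  rw [t2Num, map_mul, PowerSeries.constantCoeff_expand, constantCoeff_dedekindEtaUnit,
    constantCoeff_dedekindEtaUnitInv, one_mul]

theorem constantCoeff_t3Num : PowerSeries.constantCoeff t3Num = 1 := by
  rw [t3Num, map_mul, map_mul, PowerSeries.constantCoeff_expand, PowerSeries.constantCoeff_expand,
    constantCoeff_aZ, constantCoeff_dedekindEtaUnitInv, one_mul, one_mul]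

theorem ex3_aZ_sq_mul : ex 3 aZ ^ 2 * ex 3 VZ = 1 := by
  rw [← map_pow, aZ_sq, ex_UZ_mul_ex_VZ]

theorem aZ_sq_mul_VZ : aZ ^ 2 * VZ = 1 := by rw [aZ_sq, UZ_mul_VZ]

theorem jNum_mul_t2Num_sq : jNum * t2Num ^ 2 = (t2Num + 256 * X) ^ 3 := by
  have h1 := UZ_mul_VZ
  have h2 := ex_UZ_mul_ex_VZ 2
  have h3 := ident2
  have e : UZ * ex 2 VZ + 256 * X = ex 2 VZ * (UZ + 256 * X * ex 2 UZ) := by
    linear_combination (-256 * X) * h2
  rw [jNum, t2Num, e]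
  linear_combination (EZ ^ 3 * UZ * ex 2 VZ ^ 2) * h1 + ex 2 VZ ^ 3 * h3
    - (EZ ^ 3 * UZ * ex 2 VZ ^ 2) * h2

theorem ex2_jNum_mul_t2Num : ex 2 jNum * t2Num = (t2Num + 16 * X) ^ 3 := by
  have h2 := ex_UZ_mul_ex_VZ 2
  have h3 := ident2'
  have e : UZ * ex 2 VZ + 16 * X = ex 2 VZ * (UZ + 16 * X * ex 2 UZ) := by
    linear_combination (-16 * X) * h2
  rw [jNum, t2Num, e, map_mul, map_pow]
  linear_combination ex 2 VZ ^ 3 * h3 - (ex 2 EZ ^ 3 * UZ * ex 2 VZ ^ 2) * h2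

theorem jNum_mul_t3Num_cube :
    jNum * t3Num ^ 3 = (t3Num + 27 * X) * (t3Num + 243 * X) ^ 3 := by
  have h1 := aZ_sq_mul_VZ
  have h5 := ex3_aZ_sq_mul
  have h3 := ident3
  have e27 : aZ * (ex 3 aZ * ex 3 VZ) + 27 * X
      = ex 3 aZ * ex 3 VZ * (aZ + 27 * X * ex 3 aZ) := by
    linear_combination (-27 * X) * h5
  have e243 : aZ * (ex 3 aZ * ex 3 VZ) + 243 * X
      = ex 3 aZ * ex 3 VZ * (aZ + 243 * X * ex 3 aZ) := by
    linear_combination (-243 * X) * h5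
  rw [jNum, t3Num, e27, e243]
  linear_combination (EZ ^ 3 * aZ * ex 3 aZ ^ 3 * ex 3 VZ ^ 3) * h1
    + (ex 3 aZ ^ 4 * ex 3 VZ ^ 4) * h3 - (EZ ^ 3 * aZ * ex 3 aZ ^ 3 * ex 3 VZ ^ 3) * h5

theorem ex3_jNum_mul_t3Num :
    ex 3 jNum * t3Num = (t3Num + 27 * X) * (t3Num + 3 * X) ^ 3 := by
  have h5 := ex3_aZ_sq_mul
  have h3 := ident3'
  have e27 : aZ * (ex 3 aZ * ex 3 VZ) + 27 * X
      = ex 3 aZ * ex 3 VZ * (aZ + 27 * X * ex 3 aZ) := by
    linear_combination (-27 * X) * h5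
  have e3 : aZ * (ex 3 aZ * ex 3 VZ) + 3 * X
      = ex 3 aZ * ex 3 VZ * (aZ + 3 * X * ex 3 aZ) := by
    linear_combination (-3 * X) * h5
  rw [jNum, t3Num, e27, e3, map_mul, map_pow]
  linear_combination (ex 3 aZ ^ 4 * ex 3 VZ ^ 4) * h3
    - (ex 3 EZ ^ 3 * aZ * ex 3 aZ * ex 3 VZ ^ 2 * (ex 3 aZ ^ 2 * ex 3 VZ + 1)) * h5

/-! ### Laurent series over an arbitrary commutative ring -/

section Laurent

variable (K : Type*) [CommRing K]

/-- The change of coefficients `ℤ⟦X⟧ → K((X))`. -/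
def em : PowerSeries ℤ →+* LaurentSeries K :=
  (HahnSeries.ofPowerSeries ℤ K).comp (PowerSeries.map (Int.castRingHom K))

/-- `q⁻¹` -/
def xinv : LaurentSeries K := HahnSeries.single (-1 : ℤ) (1 : K)

theorem em_apply (A : PowerSeries ℤ) :
    em K A = HahnSeries.ofPowerSeries ℤ K (A.map (Int.castRingHom K)) := rfl

theorem xinv_mul_em_X : xinv K * em K X = 1 := by
  rw [em_apply, PowerSeries.map_X, HahnSeries.ofPowerSeries_X, xinv,
    HahnSeries.single_mul_single]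
  simp

theorem jqModC_eq : jqModC K = xinv K * em K jNum := rfl

theorem ofPowerSeries_expand (d : ℕ) [NeZero d] (a : PowerSeries K) :
    HahnSeries.ofPowerSeries ℤ K (PowerSeries.expand d (NeZero.ne d) a)
      = qExpand K d (HahnSeries.ofPowerSeries ℤ K a) := by
  have hd : 0 < d := Nat.pos_of_ne_zero (NeZero.ne d)
  ext m
  by_cases hdm : (d : ℤ) ∣ m
  · obtain ⟨m', rfl⟩ := hdm
    rw [qExpand_coeff_mul]
    rcases lt_or_ge m' 0 with hm' | hm'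
    · rw [ofPowerSeries_coeff_of_neg _ hm', ofPowerSeries_coeff_of_neg]
      exact mul_neg_of_pos_of_neg (by exact_mod_cast hd) hm'
    · obtain ⟨n, rfl⟩ := Int.eq_ofNat_of_zero_le hm'
      rw [show (d : ℤ) * (n : ℤ) = ((d * n : ℕ) : ℤ) by push_cast; rfl,
        HahnSeries.ofPowerSeries_apply_coeff, HahnSeries.ofPowerSeries_apply_coeff,
        PowerSeries.coeff_expand_mul]
  · rw [qExpand_coeff_of_not_dvd d _ hdm]
    rcases lt_or_ge m 0 with hm | hm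
    · exact ofPowerSeries_coeff_of_neg _ hm
    · obtain ⟨n, rfl⟩ := Int.eq_ofNat_of_zero_le hm
      rw [HahnSeries.ofPowerSeries_apply_coeff, PowerSeries.coeff_expand_of_not_dvd]
      intro h
      exact hdm (by exact_mod_cast h)

theorem qExpand_em (d : ℕ) [NeZero d] (A : PowerSeries ℤ) :
    qExpand K d (em K A) = em K (ex d A) := by
  rw [em_apply, em_apply, PowerSeries.map_expand, ofPowerSeries_expand]

theorem qExpand_xinv (d : ℕ) [NeZero d] : qExpand K d (xinv K) = xinv K ^ d := by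
  rw [xinv, qExpand_single, HahnSeries.single_pow, one_pow]
  congr 1

theorem jqNModC_eq (d : ℕ) [NeZero d] : jqNModC K d = xinv K ^ d * em K (ex d jNum) := by
  rw [jqNModC, jqModC_eq, map_mul, qExpand_xinv, qExpand_em]

/-- The Hauptmodul `t₂ = Δ(τ)/Δ(2τ)` of `Γ₀(2)`. -/
def t2 : LaurentSeries K := xinv K * em K t2Num

/-- The Hauptmodul `t₃ = (η(τ)/η(3τ))¹²` of `Γ₀(3)`. -/
def t3 : LaurentSeries K := xinv K * em K t3Num

theorem xinv_mul_add (A : LaurentSeries K) (c : LaurentSeries K) :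
    xinv K * A + c = xinv K * (A + c * em K X) := by
  rw [mul_add, mul_left_comm, xinv_mul_em_X, mul_one]

/-- `j · t₂² = (t₂ + 256)³`. -/
theorem jq_mul_t2_sq : jqModC K * t2 K ^ 2 = (t2 K + 256) ^ 3 := by
  have h := congrArg (em K) jNum_mul_t2Num_sq
  rw [map_mul, map_pow, map_pow, map_add, map_mul, map_ofNat] at h
  rw [jqModC_eq, t2, xinv_mul_add]
  linear_combination xinv K ^ 3 * h

/-- `j(q²) · t₂ = (t₂ + 16)³`. -/
theorem jq2_mul_t2 : jqNModC K 2 * t2 K = (t2 K + 16) ^ 3 := by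
  have h := congrArg (em K) ex2_jNum_mul_t2Num
  rw [map_mul, map_pow, map_add, map_mul, map_ofNat] at h
  rw [jqNModC_eq, t2, xinv_mul_add]
  linear_combination xinv K ^ 3 * h

/-- `j · t₃³ = (t₃ + 27)(t₃ + 243)³`. -/
theorem jq_mul_t3_cube : jqModC K * t3 K ^ 3 = (t3 K + 27) * (t3 K + 243) ^ 3 := by
  have h := congrArg (em K) jNum_mul_t3Num_cube
  rw [map_mul, map_pow, map_mul, map_pow, map_add, map_add, map_mul, map_mul, map_ofNat,
    map_ofNat] at h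
  rw [jqModC_eq, t3, xinv_mul_add, xinv_mul_add]
  linear_combination xinv K ^ 4 * h

/-- `j(q³) · t₃ = (t₃ + 27)(t₃ + 3)³`. -/
theorem jq3_mul_t3 : jqNModC K 3 * t3 K = (t3 K + 27) * (t3 K + 3) ^ 3 := by
  have h := congrArg (em K) ex3_jNum_mul_t3Num
  rw [map_mul, map_mul, map_pow, map_add, map_add, map_mul, map_mul, map_ofNat,
    map_ofNat] at h
  rw [jqNModC_eq, t3, xinv_mul_add, xinv_mul_add]
  linear_combination xinv K ^ 4 * h

end Laurent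

end Fermat.Agent.S30.AuxLevel
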