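import Mathlib
import Fermat.Agent.S30.AuxLevel.Trunc

/-!
# Fast truncated power-series arithmetic (quadratic list multiplication)

`AuxLevel/Trunc.lean` multiplies coefficient lists through `List.getD`, which is fine for a dozen
coefficients.  Sturm certificates of high weight (e.g. `97` resp. `145` coefficients of forms of
weight `96` resp. `144` on `Γ₀(6)`) need more; here are structurally recursive list operations
with linear cost per output cell (zero entries are skipped), proved against the same predicate
`AuxLevel.Rep`.  Nothing imports this file yet; it is a tool for future kernel certificates.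
-/

set_option autoImplicit false

namespace Fermat.Agent.S30.AuxLevel.Fast

open PowerSeries Fermat.Agent.S30.AuxLevel

/-- coefficientwise sum -/
def addL : List ℤ → List ℤ → List ℤ
  | [], m => m
  | a :: l, [] => a :: l
  | a :: l, b :: m => (a + b) :: addL l m

/-- scalar multiple -/
def smulL (c : ℤ) : List ℤ → List ℤ
  | [] => []
  | a :: l => (c * a) :: smulL c l

/-- `a • m + r`, coefficientwise -/
def axpy (a : ℤ) : List ℤ → List ℤ → List ℤ
  | [], r => r
  | b :: m, [] => (a * b) :: axpy a m []
  | b :: m, c :: r => (a * b + c) :: axpy a m r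

/-- Cauchy product (school multiplication, skipping the zero coefficients of the first factor) -/
def mulL : List ℤ → List ℤ → List ℤ
  | [], _ => []
  | a :: l, m => if a = 0 then 0 :: mulL l m else axpy a m (0 :: mulL l m)

/-- truncated Cauchy product -/
def mulT (n : ℕ) (l m : List ℤ) : List ℤ := (mulL l m).take n

/-- truncated power -/
def powT (n : ℕ) (l : List ℤ) : ℕ → List ℤ
  | 0 => lone n
  | k + 1 => mulT n (powT n l k) l

/-- multiplication by `X ^ k` -/
def shiftL (k : ℕ) (l : List ℤ) : List ℤ := List.replicate k 0 ++ l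

/-- multiplication by `1 - X ^ (k + 1)`, truncated -/
def eulerStep (n k : ℕ) (l : List ℤ) : List ℤ :=
  (axpy (-1) (shiftL (k + 1) l) l).take n

/-- the coefficient list of `∏_{k < m} (1 - X ^ (k + 1))` -/
def eulerL (n : ℕ) : ℕ → List ℤ
  | 0 => lone n
  | m + 1 => eulerStep n m (eulerL n m)

theorem getD_addL (l m : List ℤ) (i : ℕ) : (addL l m).getD i 0 = l.getD i 0 + m.getD i 0 := by
  induction l generalizing m i with
  | nil => simp [addL]
  | cons a l ih =>
    cases m with
    | nil => simp [addL]
    | cons b m =>
      cases i with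
      | zero => simp [addL]
      | succ i =>
        rw [addL, List.getD_cons_succ, List.getD_cons_succ, List.getD_cons_succ]
        exact ih m i

theorem getD_smulL (c : ℤ) (l : List ℤ) (i : ℕ) : (smulL c l).getD i 0 = c * l.getD i 0 := by
  induction l generalizing i with
  | nil => simp [smulL]
  | cons a l ih =>
    cases i with
    | zero => simp [smulL]
    | succ i =>
      rw [smulL, List.getD_cons_succ, List.getD_cons_succ]
      exact ih i

theorem getD_axpy (a : ℤ) (m r : List ℤ) (i : ℕ) :
    (axpy a m r).getD i 0 = a * m.getD i 0 + r.getD i 0 := by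
  induction m generalizing r i with
  | nil => simp [axpy]
  | cons b m ih =>
    cases r with
    | nil =>
      cases i with
      | zero => simp [axpy]
      | succ i =>
        rw [axpy, List.getD_cons_succ, List.getD_cons_succ, ih]
        simp
    | cons c r =>
      cases i with
      | zero => simp [axpy]
      | succ i =>
        rw [axpy, List.getD_cons_succ, List.getD_cons_succ, List.getD_cons_succ, ih]

theorem getD_mulL (l m : List ℤ) (i : ℕ) :
    (mulL l m).getD i 0 = ∑ j ∈ Finset.range (i + 1), l.getD j 0 * m.getD (i - j) 0 := by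
  induction l generalizing i with
  | nil => simp [mulL]
  | cons a l ih =>
    have key : (0 :: mulL l m).getD i 0 + a * m.getD i 0
        = ∑ j ∈ Finset.range (i + 1), (a :: l).getD j 0 * m.getD (i - j) 0 := by
      cases i with
      | zero => simp
      | succ i =>
        rw [List.getD_cons_succ, ih, Finset.sum_range_succ' _ (i + 1)]
        simp only [List.getD_cons_succ, List.getD_cons_zero, Nat.sub_zero, Nat.add_sub_add_right]
    rw [mulL]
    split_ifs with ha
    · rw [← key, ha, zero_mul, add_zero]
    · rw [getD_axpy, ← key, add_comm]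

theorem getD_take {n i : ℕ} (h : i < n) (l : List ℤ) : (l.take n).getD i 0 = l.getD i 0 := by
  simp [List.getD_eq_getElem?_getD, h]

theorem getD_shiftL (k : ℕ) (l : List ℤ) (i : ℕ) :
    (shiftL k l).getD i 0 = if i < k then 0 else l.getD (i - k) 0 := by
  induction k generalizing i with
  | zero => simp [shiftL]
  | succ k ih =>
    have e : shiftL (k + 1) l = 0 :: shiftL k l := by
      simp [shiftL, List.replicate_succ]
    rw [e]
    cases i with
    | zero => simp
    | succ i =>
      rw [List.getD_cons_succ, ih]
      simp only [Nat.add_lt_add_iff_right, Nat.add_sub_add_right]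

variable {n : ℕ} {A B : PowerSeries ℤ} {l m : List ℤ}

theorem rep_addL (hA : Rep n A l) (hB : Rep n B m) : Rep n (A + B) (addL l m) := by
  intro i hi
  rw [getD_addL, map_add, hA i hi, hB i hi]

theorem rep_smulL (c : ℤ) (hA : Rep n A l) : Rep n (C c * A) (smulL c l) := by
  intro i hi
  rw [getD_smulL, coeff_C_mul, hA i hi]

theorem rep_mulT (hA : Rep n A l) (hB : Rep n B m) : Rep n (A * B) (mulT n l m) := by
  intro i hi
  rw [mulT, getD_take hi, getD_mulL, coeff_mul,
    Finset.Nat.sum_antidiagonal_eq_sum_range_succ_mk]
  refine Finset.sum_congr rfl fun j hj => ?_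
  have hj' : j < i + 1 := Finset.mem_range.mp hj
  rw [hA j (by omega), hB (i - j) (by omega)]

theorem rep_powT (hA : Rep n A l) (k : ℕ) : Rep n (A ^ k) (powT n l k) := by
  induction k with
  | zero => simpa [powT] using rep_one n
  | succ k ih =>
    rw [pow_succ]
    exact rep_mulT ih hA

theorem rep_X_mul (hA : Rep n A l) : Rep n (X * A) ((0 :: l).take n) := by
  intro i hi
  rw [getD_take hi]
  cases i with
  | zero => simp
  | succ i => rw [coeff_succ_X_mul, List.getD_cons_succ, hA i (by omega)]

theorem rep_eulerStep (hA : Rep n A l) (k : ℕ) :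
    Rep n ((1 - X ^ (k + 1)) * A) (eulerStep n k l) := by
  intro i hi
  rw [eulerStep, getD_take hi, getD_axpy, getD_shiftL, sub_mul, one_mul, map_sub,
    coeff_X_pow_mul', hA i hi]
  by_cases h : k + 1 ≤ i
  · rw [if_pos h, if_neg (by omega), hA (i - (k + 1)) (by omega)]
    ring
  · rw [if_neg h, if_pos (by omega)]
    ring

theorem rep_euler (n m : ℕ) :
    Rep n (∏ k ∈ Finset.range m, (1 - X ^ (k + 1) : PowerSeries ℤ)) (eulerL n m) := by
  induction m with
  | zero => simpa [eulerL] using rep_one n
  | succ m ih =>
    rw [Finset.prod_range_succ, mul_comm]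
    exact rep_eulerStep ih m

/-- The Euler product `∏ (1 - Xⁿ)`, fast version. -/
theorem rep_etaProd (n : ℕ) : Rep n ModularCurve.etaProd (eulerL n n) := by
  intro i hi
  rw [coeff_etaProd hi]
  exact rep_euler n n i hi

/-- the `24`-th power by repeated squaring -/
def pow24 (n : ℕ) (l : List ℤ) : List ℤ :=
  let s2 := mulT n l l
  let s4 := mulT n s2 s2
  let s8 := mulT n s4 s4
  let s16 := mulT n s8 s8
  mulT n s8 s16

theorem rep_pow24 (hA : Rep n A l) : Rep n (A ^ 24) (pow24 n l) := by
  have h2 := rep_mulT hA hA
  have h4 := rep_mulT h2 h2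
  have h8 := rep_mulT h4 h4
  have h16 := rep_mulT h8 h8
  have h24 := rep_mulT h8 h16
  have e : A * A * (A * A) * (A * A * (A * A))
      * (A * A * (A * A) * (A * A * (A * A)) * (A * A * (A * A) * (A * A * (A * A)))) = A ^ 24 := by
    ring
  rw [← e]
  exact h24

theorem rep_of_eq {A' : PowerSeries ℤ} (hA : Rep n A l) (h : A = A') : Rep n A' l := h ▸ hA

/-- the coefficient list of `Δ = X ∏ (1 - Xⁿ)²⁴` -/
def dL (n : ℕ) : List ℤ := (0 :: pow24 n (eulerL n n)).take n

end Fermat.Agent.S30.AuxLevel.Fast
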