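import Mathlib
import Fermat.Agent.S24.Modular.M3
import Fermat.Agent.S28.Char0
import Fermat.Agent.S28.Char0Gen
import Fermat.Agent.S30.AuxLevel.Haupt

/-!
# `t₂`, `t₃` lie in the modular function fields of levels `2`, `3`

* `field_le_full` : for a prime `p`, every weight-zero quotient of rational modular forms on
  `Γ₀(p)` lies in `ℚ(j(q), j(q^p)) = modularFunctionFieldFull p` (upper bound on the degree from
  the Sturm bound, `S28.Char0Gen.mem_adjoin_of_indep`; lower bound `[ℚ̄(j, j_p) : ℚ̄(j)] = p + 1`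
  from `S24.Modular.finrank_jF`).
* `t2_mem`, `t3_mem` and their base changes `t2_mem_laurentBaseChange`, `t2_mem_bar`, ….
-/

set_option autoImplicit false

noncomputable section

namespace Fermat.Agent.S30.AuxLevel

open ModularCurve CongruenceSubgroup Polynomial IntermediateField
open Fermat.Agent.S28.SturmDep Fermat.Agent.S28.SturmMF
open Fermat.Agent.S24.Modular Fermat.Agent.S24.Degree

/-- `1, j_p, …, j_p^p` are independent over `ℚ̄[j]` (`p` prime). -/
theorem indep_bar (p : ℕ) (hp : p.Prime) [NeZero p] :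
    ∀ B : Kbar[X][X], B.natDegree < p + 1 →
      eval₂ (eval₂RingHom HahnSeries.C (coeffEmb Kbar jq)) (coeffEmb Kbar (qExpand ℚ p jq)) B = 0 →
      B = 0 := by
  intro B hB h0
  by_contra hB0
  let x2 : FN p := ⟨coeffEmb Kbar (qExpand ℚ p jq),
    coeffEmb_mem_laurentBaseChange Kbar (jqd_mem_full p (dvd_refl p))⟩
  let g : Kbar⟮jF p⟯ := ⟨jF p, mem_adjoin_simple_self Kbar (jF p)⟩
  let φ : Kbar[X] →+* Kbar⟮jF p⟯ := eval₂RingHom (algebraMap Kbar Kbar⟮jF p⟯) g
  have hφ : Function.Injective φ := by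
    rw [injective_iff_map_eq_zero]
    intro c hc
    have h1 : aeval (jF p) c = 0 := by
      have h2 := congrArg (algebraMap Kbar⟮jF p⟯ (FN p)) hc
      rw [map_zero] at h2
      rw [← h2, aeval_def]
      show _ = algebraMap Kbar⟮jF p⟯ (FN p) (eval₂ (algebraMap Kbar Kbar⟮jF p⟯) g c)
      rw [hom_eval₂]
      rfl
    exact (transcendental_iff_injective.mp (transcendental_jF p))
      (h1.trans (map_zero _).symm)
  set P : (Kbar⟮jF p⟯)[X] := B.map φ with hP
  have hP0 : P ≠ 0 := (Polynomial.map_ne_zero_iff hφ).mpr hB0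
  have hPdeg : P.natDegree ≤ p := natDegree_map_le.trans (Nat.lt_succ_iff.mp hB)
  have hPx : aeval x2 P = 0 := by
    apply Subtype.ext
    have hval : ∀ Q : (Kbar⟮jF p⟯)[X],
        ((aeval x2 Q : FN p) : LaurentSeries Kbar)
          = eval₂ ((modularFunctionFieldBar p).val.toRingHom.comp
              (algebraMap Kbar⟮jF p⟯ (FN p))) (coeffEmb Kbar (qExpand ℚ p jq)) Q := by
      intro Q
      rw [aeval_def]
      exact hom_eval₂ Q (algebraMap Kbar⟮jF p⟯ (FN p))
        (modularFunctionFieldBar p).val.toRingHom x2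
    rw [hval, hP, eval₂_map]
    have hhom : ((modularFunctionFieldBar p).val.toRingHom.comp
        (algebraMap Kbar⟮jF p⟯ (FN p))).comp φ
          = eval₂RingHom HahnSeries.C (coeffEmb Kbar jq) := by
      apply Polynomial.ringHom_ext
      · intro a
        simp only [RingHom.comp_apply, φ, coe_eval₂RingHom, eval₂_C]
        show algebraMap Kbar (LaurentSeries Kbar) a = HahnSeries.C a
        rw [algebraMap_laurentSeries_eq_single]
        rfl
      · simp only [RingHom.comp_apply, φ, coe_eval₂RingHom, eval₂_X]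
        rfl
    rw [hhom, h0]
    rfl
  have hint : IsIntegral Kbar⟮jF p⟯ x2 := isAlgebraic_iff_isIntegral.mp ⟨P, hP0, hPx⟩
  have htop : Kbar⟮jF p⟯⟮x2⟯ = ⊤ := by
    rw [eq_top_iff, ← Fermat.Agent.S24.DegreeAbs.adjoin_simple_adjoin_eq_top (jF p) (gensFN p)
      (adjoin_gensFN p), IntermediateField.adjoin_le_iff]
    rintro y ⟨z, ⟨d, hd0, hd, rfl⟩, hz⟩
    rcases (Nat.dvd_prime hp).mp hd with rfl | rfl
    · have hy : y = jF p := Subtype.ext (by rw [← hz, qExpand_one_apply]; rfl)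
      rw [hy]
      exact IntermediateField.algebraMap_mem _ g
    · have hy : y = x2 := Subtype.ext hz.symm
      rw [hy]
      exact mem_adjoin_simple_self _ _
  have hfr : Module.finrank Kbar⟮jF p⟯ (FN p) = p + 1 := by
    rw [finrank_jF, dedekindPsi_prime hp]
  have h1 : Module.finrank Kbar⟮jF p⟯ Kbar⟮jF p⟯⟮x2⟯ = (minpoly Kbar⟮jF p⟯ x2).natDegree :=
    IntermediateField.adjoin.finrank hint
  have h2 : (minpoly Kbar⟮jF p⟯ x2).natDegree ≤ P.natDegree :=
    natDegree_le_natDegree (minpoly.degree_le_of_ne_zero _ _ hP0 hPx)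
  rw [htop, IntermediateField.finrank_top', hfr] at h1
  omega

/-- `1, j_p, …, j_p^p` are independent over `ℚ[j]` (`p` prime). -/
theorem indep_rat (p : ℕ) (hp : p.Prime) [NeZero p] :
    ∀ B : ℚ[X][X], B.natDegree < p + 1 →
      eval₂ (eval₂RingHom HahnSeries.C jq) (qExpand ℚ p jq) B = 0 → B = 0 :=
  Fermat.Agent.S28.Char0.indep_of_injective (algebraMap ℚ Kbar) (algebraMap ℚ Kbar).injective
    jq (qExpand ℚ p jq) (p + 1) (indep_bar p hp)

/-- For a prime `p`, the field of weight-zero quotients of rational modular forms on `Γ₀(p)` is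
contained in `ℚ(j(q), j(q^p))`. -/
theorem field_le_full (p : ℕ) (hp : p.Prime) [NeZero p] {z : LaurentSeries ℚ}
    (hz : z ∈ (mfGraded p).field) : z ∈ modularFunctionFieldFull p := by
  have h := Fermat.Agent.S28.Char0Gen.mem_adjoin_of_indep p (p + 1)
    (by rw [Fermat.Agent.Lib.Gamma0Count.index_Gamma0 p hp.ne_zero, dedekindPsi_prime hp])
    (qExpand ℚ p jq) (qExpand_jq_mem p (dvd_refl p)) (indep_rat p hp) z hz
  refine (IntermediateField.adjoin_le_iff.mpr ?_) h
  rintro y (rfl | rfl)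
  · have h1 := jqd_mem_full p (one_dvd p)
    rwa [qExpand_one_apply] at h1
  · exact jqd_mem_full p (dvd_refl p)

/-! ### `t₂` and `t₃` are weight-zero quotients -/

theorem emb_deltaQ : Graded.emb deltaQ = em ℚ DZ := by
  rw [deltaQ_eq]
  rfl

theorem t2_mem_field : t2 ℚ ∈ (mfGraded 2).field := by
  have hH : pexp 2 deltaQ ∈ (mfGraded 2).M 12 := pexp_deltaQ_mem 2 (dvd_refl 2)
  refine (mfGraded 2).mem_W_of (deltaQ_mem 2) hH (pexp_ne_zero 2 deltaQ_ne_zero) ?_
  have h : t2Num * (PowerSeries.X ^ 2 * ex 2 UZ) = PowerSeries.X * DZ := by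
    rw [DZ_eq, t2Num]
    linear_combination (PowerSeries.X ^ 2 * UZ) * ex_UZ_mul_ex_VZ 2
  have h' : em ℚ t2Num * em ℚ (PowerSeries.X ^ 2 * ex 2 UZ) = em ℚ PowerSeries.X * em ℚ DZ := by
    rw [← map_mul, ← map_mul, h]
  rw [emb_pexp, emb_deltaQ, qExpand_em, ex_DZ, t2, mul_assoc, h', ← mul_assoc, xinv_mul_em_X,
    one_mul]

/-- the numerator `Δ² + 196830 Δ Δ₃ + 387420489 Δ₃²` -/
def vZ : PowerSeries ℤ :=
  DZ ^ 2 + PowerSeries.C 196830 * (DZ * ex 3 DZ) + PowerSeries.C 387420489 * ex 3 DZ ^ 2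

/-- the denominator `Δ₃ (E₄³ - 756 Δ - 19131876 Δ₃)` -/
def hZ : PowerSeries ℤ :=
  ex 3 DZ * (EZ ^ 3 - PowerSeries.C 756 * DZ - PowerSeries.C 19131876 * ex 3 DZ)

theorem inM_vZ : InM 3 24 vZ :=
  (((inM_D 3).pow 2).add (((inM_D 3).mul (inM_exD (dvd_refl 3))).C_mul 196830)).add
    (((inM_exD (dvd_refl 3)).pow 2).C_mul 387420489)

theorem inM_hZ : InM 3 24 hZ :=
  (inM_exD (dvd_refl 3)).mul
    ((((inM_E 3).pow 3).sub ((inM_D 3).C_mul 756)).sub ((inM_exD (dvd_refl 3)).C_mul 19131876))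

theorem t3Num_mul_hZ : t3Num * hZ = PowerSeries.X * vZ := by
  rw [hZ, vZ, t3Num, ex3_DZ_eq, DZ_eq_aZ,
    show (PowerSeries.C (756 : ℤ) : PowerSeries ℤ) = 756 from map_ofNat PowerSeries.C 756,
    show (PowerSeries.C (19131876 : ℤ) : PowerSeries ℤ) = 19131876 from
      map_ofNat PowerSeries.C 19131876,
    show (PowerSeries.C (196830 : ℤ) : PowerSeries ℤ) = 196830 from
      map_ofNat PowerSeries.C 196830,
    show (PowerSeries.C (387420489 : ℤ) : PowerSeries ℤ) = 387420489 from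
      map_ofNat PowerSeries.C 387420489]
  linear_combination
    (PowerSeries.X ^ 3 * aZ * ex 3 aZ * (EZ ^ 3 - 756 * (PowerSeries.X * aZ ^ 2)
      - 19131876 * (PowerSeries.X * (PowerSeries.X * ex 3 aZ) ^ 2))) * ex3_aZ_sq_mul
      + PowerSeries.X ^ 3 * ident3

theorem hZ_ne_zero : hZ ≠ 0 := by
  have h1 : ex 3 DZ ≠ 0 := by
    intro h
    have h2 := congrArg (PowerSeries.coeff (3 * 1)) h
    rw [PowerSeries.coeff_expand_mul, DZ_eq, PowerSeries.coeff_succ_X_mul, map_zero,
      PowerSeries.coeff_zero_eq_constantCoeff] at h2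
    rw [show PowerSeries.constantCoeff UZ = 1 from constantCoeff_dedekindEtaUnit] at h2
    exact one_ne_zero h2
  have h2 : EZ ^ 3 - PowerSeries.C 756 * DZ - PowerSeries.C 19131876 * ex 3 DZ ≠ 0 := by
    intro h
    have h3 := congrArg PowerSeries.constantCoeff h
    rw [map_sub, map_sub, map_pow, map_mul, map_mul, PowerSeries.constantCoeff_expand, DZ_eq,
      map_mul, PowerSeries.constantCoeff_X, constantCoeff_eisenstein4] at h3
    simp at h3
  exact mul_ne_zero h1 h2

theorem t3_mem_field : t3 ℚ ∈ (mfGraded 3).field := by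
  refine (mfGraded 3).mem_W_of inM_vZ inM_hZ ?_ ?_
  · intro h
    exact hZ_ne_zero (PowerSeries.map_injective _ Int.cast_injective (h.trans (map_zero _).symm))
  · have h' : em ℚ t3Num * em ℚ hZ = em ℚ PowerSeries.X * em ℚ vZ := by
      rw [← map_mul, ← map_mul, t3Num_mul_hZ]
    show t3 ℚ * em ℚ hZ = em ℚ vZ
    rw [t3, mul_assoc, h', ← mul_assoc, xinv_mul_em_X, one_mul]

/-! ### Membership in the modular function fields -/

/-- `t₂ ∈ ℚ(j(q), j(q²))`. -/
theorem t2_mem : t2 ℚ ∈ modularFunctionFieldFull 2 :=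
  field_le_full 2 Nat.prime_two t2_mem_field

/-- `t₃ ∈ ℚ(j(q), j(q³))`. -/
theorem t3_mem : t3 ℚ ∈ modularFunctionFieldFull 3 :=
  field_le_full 3 Nat.prime_three t3_mem_field

theorem t2_mem_full {M : ℕ} [NeZero M] (h : 2 ∣ M) : t2 ℚ ∈ modularFunctionFieldFull M :=
  full_degeneracy_le h t2_mem

theorem t3_mem_full {M : ℕ} [NeZero M] (h : 3 ∣ M) : t3 ℚ ∈ modularFunctionFieldFull M :=
  full_degeneracy_le h t3_mem

/-! ### Change of coefficients -/

section BaseChange

variable {K K' : Type*} [CommRing K] [CommRing K']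

theorem coeffMap_em (f : K →+* K') (A : PowerSeries ℤ) : coeffMap f (em K A) = em K' A := by
  ext k
  rw [coeffMap_coeff, em_apply, em_apply]
  rcases lt_or_ge k 0 with hk | hk
  · rw [ofPowerSeries_coeff_of_neg _ hk, ofPowerSeries_coeff_of_neg _ hk, map_zero]
  · obtain ⟨n, rfl⟩ := Int.eq_ofNat_of_zero_le hk
    rw [HahnSeries.ofPowerSeries_apply_coeff, HahnSeries.ofPowerSeries_apply_coeff,
      PowerSeries.coeff_map, PowerSeries.coeff_map]
    simp

theorem coeffMap_xinv (f : K →+* K') : coeffMap f (xinv K) = xinv K' := by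
  rw [xinv, coeffMap_single, map_one, xinv]

theorem coeffMap_t2 (f : K →+* K') : coeffMap f (t2 K) = t2 K' := by
  rw [t2, map_mul, coeffMap_xinv, coeffMap_em, t2]

theorem coeffMap_t3 (f : K →+* K') : coeffMap f (t3 K) = t3 K' := by
  rw [t3, map_mul, coeffMap_xinv, coeffMap_em, t3]

variable (K) in
theorem coeff_xinv_mul_em (A : PowerSeries ℤ) (k : ℤ) :
    (xinv K * em K A).coeff k = (em K A).coeff (k + 1) := by
  rw [xinv, HahnSeries.coeff_single_mul, one_mul, sub_neg_eq_add]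

variable (K) in
theorem coeff_t2_neg_one : (t2 K).coeff (-1) = 1 := by
  rw [t2, coeff_xinv_mul_em, neg_add_cancel, em_apply,
    show (0 : ℤ) = ((0 : ℕ) : ℤ) from rfl, HahnSeries.ofPowerSeries_apply_coeff,
    PowerSeries.coeff_map, PowerSeries.coeff_zero_eq_constantCoeff_apply, constantCoeff_t2Num]
  simp

variable (K) in
theorem coeff_t3_neg_one : (t3 K).coeff (-1) = 1 := by
  rw [t3, coeff_xinv_mul_em, neg_add_cancel, em_apply,
    show (0 : ℤ) = ((0 : ℕ) : ℤ) from rfl, HahnSeries.ofPowerSeries_apply_coeff,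
    PowerSeries.coeff_map, PowerSeries.coeff_zero_eq_constantCoeff_apply, constantCoeff_t3Num]
  simp

variable (K) in
theorem coeff_t2_of_lt {k : ℤ} (hk : k < -1) : (t2 K).coeff k = 0 := by
  rw [t2, coeff_xinv_mul_em, em_apply]
  exact ofPowerSeries_coeff_of_neg _ (by omega)

variable (K) in
theorem coeff_t3_of_lt {k : ℤ} (hk : k < -1) : (t3 K).coeff k = 0 := by
  rw [t3, coeff_xinv_mul_em, em_apply]
  exact ofPowerSeries_coeff_of_neg _ (by omega)

end BaseChange

section Field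

variable (L : Type*) [Field L] [Algebra ℚ L]

theorem coeffEmb_t2 : coeffEmb L (t2 ℚ) = t2 L := coeffMap_t2 _

theorem coeffEmb_t3 : coeffEmb L (t3 ℚ) = t3 L := coeffMap_t3 _

/-- `t₂` lies in the level-`M` function field over `L` whenever `2 ∣ M`. -/
theorem t2_mem_laurentBaseChange {M : ℕ} [NeZero M] (h : 2 ∣ M) :
    t2 L ∈ laurentBaseChange L (modularFunctionFieldFull M) := by
  rw [← coeffEmb_t2]
  exact coeffEmb_mem_laurentBaseChange L (t2_mem_full h)

/-- `t₃` lies in the level-`M` function field over `L` whenever `3 ∣ M`. -/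
theorem t3_mem_laurentBaseChange {M : ℕ} [NeZero M] (h : 3 ∣ M) :
    t3 L ∈ laurentBaseChange L (modularFunctionFieldFull M) := by
  rw [← coeffEmb_t3]
  exact coeffEmb_mem_laurentBaseChange L (t3_mem_full h)

end Field

theorem t2_mem_bar {M : ℕ} [NeZero M] (h : 2 ∣ M) :
    t2 (AlgebraicClosure ℚ) ∈ modularFunctionFieldBar M :=
  t2_mem_laurentBaseChange (AlgebraicClosure ℚ) h

theorem t3_mem_bar {M : ℕ} [NeZero M] (h : 3 ∣ M) :
    t3 (AlgebraicClosure ℚ) ∈ modularFunctionFieldBar M :=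
  t3_mem_laurentBaseChange (AlgebraicClosure ℚ) h

end Fermat.Agent.S30.AuxLevel
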